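/-
P-MW / block MW-A1 (helper84, sub-architect): DIVISIBILITY of `J₀(N)(ℚ̄)`.
INTERFACES: definitions and `Prop`-valued statements only (no hard proofs).

Goal: `DivisibleBarStatement N n : ∀ x : JZero N, ∃ y, n • y = x` (used with `n = 2` by the weak
Mordell-Weil block).  Route (Abel-Jacobi with characters, everything holomorphic on `ℍ`):

* every class `x ∈ Pic⁰(ℂ(X₀(N)))` has a representative `D` (effective on the points of `ℍ`)
  which is the divisor of a *multiplicative function* `F` on `ℍ`: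
  `F (γ z) = χ γ * F z` for a character `χ` of `Γ₀(N)` trivial on `±1`, elliptic and parabolic
  elements (`MultExistsStatement`).  `F` is obtained by integrating a logarithmic form
  (`IsLogForm`), which is built ALGEBRAICALLY as `G dy / y` (`ThirdKindAlgStatement`:
  Riemann + Hurwitz + the algebraic residue theorem `AlgResidueStatement`).
* the character can be made unitary (`UnitaryStatement`, from the landed Eichler-Shimura S21),
  unitary characters have `n`-th roots (`CharRootStatement`, from the landed lifting lemma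
  `Fermat.Agent.H85.exists_parabolic_lift`), and every unitary character is the character of a
  holomorphic function of moderate growth (`UnitaryEisStatement`, landed Eisenstein series with
  character).  Then `F * G ^ n` is a modular function `f` with `div f = D + n E`
  (`ProductOrderStatement`), i.e. `x = n • (-[E])`.
* descent from `ℂ` to `ℚ̄` by the finite orbit argument of ES-B (`DescentDivStatement`).
-/
import Fermat.Agent.H23.EsA.Lemmas
import Fermat.Agent.H27.ESD.Interfaces
import Fermat.Prelude.Def_ModularCurve_PeriodMapBundled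

set_option autoImplicit false

noncomputable section

open AlgebraicCurve UpperHalfPlane IntermediateField Filter Topology
open scoped MatrixGroups Manifold

namespace Fermat.Agent.H84.MWDiv

open Fermat.Agent.H23.EsA

/-- Characters of `Γ₀(N)`. -/
abbrev Char0 (N : ℕ) : Type := ↥(CongruenceSubgroup.Gamma0 N) →* ℂˣ

/-- The character `χ` has values of absolute value one. -/
def IsUnitary {N : ℕ} (χ : Char0 N) : Prop :=
  ∀ γ : ↥(CongruenceSubgroup.Gamma0 N), ‖((χ γ : ℂˣ) : ℂ)‖ = 1

/-! ### The targets -/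

/-- `Pic⁰(ℂ(X₀(N)))` is `n`-divisible. -/
def DivisibleCStatement (N n : ℕ) : Prop :=
  ∀ x : Pic0 ℂ ↥(FC N), ∃ y : Pic0 ℂ ↥(FC N), n • y = x

/-- **MW-A1 (target)**: `J₀(N)(ℚ̄)` is `n`-divisible. -/
def DivisibleBarStatement (N n : ℕ) : Prop :=
  ∀ x : ModularCurve.JZero N, ∃ y : ModularCurve.JZero N, n • y = x

/-- **[A1-DESC]** descent of division points from `ℂ` to `ℚ̄` (ES-B finite orbit argument:
if `n y' = bc(x)` then the orbit of `y'` under `Aut(ℂ/ℚ̄)` lies in `y' + Pic⁰[n]`, which is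
finite, so `y'` is defined over `ℚ̄`; injectivity of the base change finishes). -/
def DescentDivStatement (N : ℕ) [NeZero N] : Prop :=
  ∀ n : ℕ, 0 < n → DivisibleCStatement N n → DivisibleBarStatement N n

/-! ### Multiplicative functions -/

/-- `F` is a holomorphic *multiplicative function* on `ℍ` with divisor `D` and character `χ`:
`F (γ z) = χ γ * F z`, `χ` is trivial on `±1`, elliptic and parabolic elements, `F` has moderate
growth at all cusps, its order at `z₀ ∈ ℍ` is `s * D v` (`v` the place of `z₀`, `s` its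
multiplier) and its order at a cusp is `D v`. -/
def IsMultFn (N : ℕ) (D : Divisor ℂ ↥(FC N)) (F : ℍ → ℂ) (χ : Char0 N) : Prop :=
  MDiff F ∧ F ≠ 0 ∧ HasCharacter N F χ ∧ IsParEllTrivial N χ ∧ ModerateGrowth F ∧
  (∀ (z₀ : ℍ) (v : Place ℂ ↥(FC N)) (s : ℕ), IsPointPlace N z₀ v s →
    meromorphicOrderAt (F ∘ ofComplex) (z₀ : ℂ) = (((s : ℤ) * D v : ℤ) : WithTop ℤ)) ∧
  (∀ (δ : SL(2, ℤ)) (v : Place ℂ ↥(FC N)) (w : ℕ), IsCuspPlace N δ v w →
    cuspOrd w (fun z => F (δ • z)) = ((D v : ℤ) : WithTop ℤ))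

/-- **[A1-MULTEX]** every class has a representative which is the divisor of a multiplicative
function. -/
def MultExistsStatement (N : ℕ) [NeZero N] : Prop :=
  ∀ x : Pic0 ℂ ↥(FC N), ∃ (D : Divisor.degZero (K := ℂ) (F := ↥(FC N))) (F : ℍ → ℂ)
    (χ : Char0 N), Pic0.mk D = x ∧ IsMultFn N (D : Divisor ℂ ↥(FC N)) F χ

/-- **[A1-UNI]** the character can be made unitary (multiply `F` by `exp (2πi Φ_η)`, `Φ_η` the
Eichler integral of a cusp form `η` with `Im Per_η = (2π)⁻¹ log |χ|`; `η` exists by S21). -/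
def UnitaryStatement (N : ℕ) [NeZero N] : Prop :=
  ∀ (D : Divisor ℂ ↥(FC N)) (F : ℍ → ℂ) (χ : Char0 N), IsMultFn N D F χ →
    ∃ (F' : ℍ → ℂ) (χ' : Char0 N), IsMultFn N D F' χ' ∧ IsUnitary χ'

/-- **[A1-ROOT]** unitary parabolic-elliptic trivial characters have `n`-th roots of the same
kind (`Γ₀(N)^ab / ⟨par, ell⟩` is finitely generated and torsion free, by the landed lifting
lemma `Fermat.Agent.H85.exists_parabolic_lift`). -/
def CharRootStatement (N : ℕ) [NeZero N] : Prop :=
  ∀ n : ℕ, 0 < n → ∀ χ : Char0 N, IsParEllTrivial N χ → IsUnitary χ →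
    ∃ ψ : Char0 N, IsParEllTrivial N ψ ∧ IsUnitary ψ ∧ ψ ^ n = χ

/-- **[A1-EIS]** every unitary parabolic-elliptic trivial character is the character of a nonzero
holomorphic function of moderate growth (`E_ψ · E₄² / Δ`; generalises the landed
`EisCharStatement` from finite exponent to unitary characters). -/
def UnitaryEisStatement (N : ℕ) [NeZero N] : Prop :=
  ∀ ψ : Char0 N, IsParEllTrivial N ψ → IsUnitary ψ →
    ∃ G : ℍ → ℂ, MDiff G ∧ G ≠ 0 ∧ HasCharacter N G ψ ∧ ModerateGrowth G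

/-- **[A1-PROD]** local computation: if `F` is multiplicative with divisor `D`, `G` transforms by
a parabolic-elliptic trivial character and `F * G ^ n` represents `f ∈ ℂ(X₀(N))`, then `f ≠ 0`
and `ord_v f ≡ D v` modulo `n` at every place `v` (at point places the order of `G` is divisible
by the multiplier `s`, at cusp places the order of `G` is an integer). -/
def ProductOrderStatement (N : ℕ) [NeZero N] : Prop :=
  ∀ (n : ℕ) (D : Divisor ℂ ↥(FC N)) (F G : ℍ → ℂ) (χ ψ : Char0 N) (f : ↥(FC N)),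
    IsMultFn N D F χ → MDiff G → G ≠ 0 → HasCharacter N G ψ → IsParEllTrivial N ψ →
    ModerateGrowth G → Rep N (F * G ^ n) f →
    f ≠ 0 ∧ ∀ v : Place ℂ ↥(FC N), ∃ k : ℤ, v.ord f = D v + (n : ℤ) * k

/-! ### Logarithmic forms and their integration -/

/-- `φ / ψ` is a *logarithmic form* with residue divisor `D`: a weight-two meromorphic form
`Λ = φ / ψ` on `ℍ` (`φ`, `ψ` holomorphic) with at most simple poles, residue `s * D v` at `z₀`,
and `Λ(δ z) (c z + d)⁻² → 2πi D v / w` exponentially fast at the cusp `δ ∞` of width `w`.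
(`Λ` is the logarithmic derivative `F' / F` of the multiplicative function to be constructed.) -/
def IsLogForm (N : ℕ) (D : Divisor ℂ ↥(FC N)) (φ ψ : ℍ → ℂ) : Prop :=
  MDiff φ ∧ MDiff ψ ∧ ψ ≠ 0 ∧
  (∀ γ ∈ CongruenceSubgroup.Gamma0 N, ∀ z : ℍ,
    φ (γ • z) * ψ z = denom γ z ^ 2 * (φ z * ψ (γ • z))) ∧
  (∀ (z₀ : ℍ) (v : Place ℂ ↥(FC N)) (s : ℕ), IsPointPlace N z₀ v s →
    ∃ u : ℂ → ℂ, AnalyticAt ℂ u (z₀ : ℂ) ∧ ∀ᶠ z in 𝓝 (z₀ : ℂ),
      (φ ∘ ofComplex) z * (z - z₀) =
        (ψ ∘ ofComplex) z * ((((s : ℤ) * D v : ℤ) : ℂ) + (z - z₀) * u z)) ∧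
  (∀ (δ : SL(2, ℤ)) (v : Place ℂ ↥(FC N)) (w : ℕ), IsCuspPlace N δ v w →
    ∃ C Y ε : ℝ, 0 < ε ∧ ∀ z : ℍ, Y ≤ z.im → ψ (δ • z) ≠ 0 ∧
      ‖φ (δ • z) / ψ (δ • z) * (denom δ z ^ 2)⁻¹ -
          2 * (Real.pi : ℂ) * Complex.I * ((D v : ℤ) : ℂ) / (w : ℂ)‖ ≤
        C * Real.exp (-ε * z.im))

/-- **[A1-LFEX]** every class has a representative `D`, effective on the points of `ℍ`, which is
the residue divisor of a logarithmic form. -/
def LogFormExistsStatement (N : ℕ) [NeZero N] : Prop :=
  ∀ x : Pic0 ℂ ↥(FC N), ∃ D : Divisor.degZero (K := ℂ) (F := ↥(FC N)),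
    Pic0.mk D = x ∧
    (∀ (z₀ : ℍ) (v : Place ℂ ↥(FC N)) (s : ℕ), IsPointPlace N z₀ v s →
      0 ≤ (D : Divisor ℂ ↥(FC N)) v) ∧
    ∃ φ ψ : ℍ → ℂ, IsLogForm N (D : Divisor ℂ ↥(FC N)) φ ψ

/-- **[A1-LFINT]** a logarithmic form with residue divisor `D` (of degree zero, effective on the
points of `ℍ`) is the logarithmic derivative of a multiplicative function with divisor `D`. -/
def LogFormIntegralStatement (N : ℕ) [NeZero N] : Prop :=
  ∀ (D : Divisor ℂ ↥(FC N)), Divisor.degree D = 0 →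
    (∀ (z₀ : ℍ) (v : Place ℂ ↥(FC N)) (s : ℕ), IsPointPlace N z₀ v s → 0 ≤ D v) →
    ∀ φ ψ : ℍ → ℂ, IsLogForm N D φ ψ → ∃ (F : ℍ → ℂ) (χ : Char0 N), IsMultFn N D F χ

/-- **[A1-LOGDERIV]** (Mathlib only; method of `Fermat.Agent.H41.HolRoot`): a meromorphic
function `φ / ψ` on `ℍ` with at most simple poles and residues in `ℕ` is the logarithmic
derivative of a holomorphic function, whose order at `z₀` is the residue. -/
def LogDerivStatement : Prop :=
  ∀ (φ ψ : ℍ → ℂ) (k : ℍ → ℕ), MDiff φ → MDiff ψ → ψ ≠ 0 →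
    (∀ z₀ : ℍ, ∃ u : ℂ → ℂ, AnalyticAt ℂ u (z₀ : ℂ) ∧ ∀ᶠ z in 𝓝 (z₀ : ℂ),
      (φ ∘ ofComplex) z * (z - z₀) = (ψ ∘ ofComplex) z * ((k z₀ : ℂ) + (z - z₀) * u z)) →
    ∃ F : ℍ → ℂ, MDiff F ∧ F ≠ 0 ∧
      (∀ z : ℍ, deriv (F ∘ ofComplex) (z : ℂ) * ψ z = φ z * F z) ∧
      (∀ z₀ : ℍ, meromorphicOrderAt (F ∘ ofComplex) (z₀ : ℂ) = ((k z₀ : ℤ) : WithTop ℤ))

/-- **[A1-LOGUNIQ]** (Mathlib only) two nonzero holomorphic solutions of `F' ψ = φ F` on `ℍ`
are proportional. -/
def LogDerivUniqueStatement : Prop :=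
  ∀ (φ ψ F₁ F₂ : ℍ → ℂ), MDiff φ → MDiff ψ → ψ ≠ 0 → MDiff F₁ → MDiff F₂ → F₂ ≠ 0 →
    (∀ z : ℍ, deriv (F₁ ∘ ofComplex) (z : ℂ) * ψ z = φ z * F₁ z) →
    (∀ z : ℍ, deriv (F₂ ∘ ofComplex) (z : ℂ) * ψ z = φ z * F₂ z) →
    ∃ c : ℂ, ∀ z : ℍ, F₁ z = c * F₂ z

/-! ### The algebraic construction of the logarithmic form `G dy / y` -/

/-- The function `G` takes the value `c` at the place `v`. -/
def HasValueAt {K F : Type*} [Field K] [Field F] [Algebra K F] (v : Place K F) (G : F) (c : K) :
    Prop :=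
  G = algebraMap K F c ∨ 0 < v.ord (G - algebraMap K F c)

/-- `G dy / y` is a differential of the third kind with residue divisor `D`: at the zeros and
poles `v` of `y` the function `G` is regular with value `D v / ord_v y`; elsewhere
`ord_v G ≥ -(e_v - 1)`, `e_v` the ramification index of `y` at `v` (so `G dy` is regular). -/
def IsThirdKind {K F : Type*} [Field K] [Field F] [Algebra K F] (y G : F) (D : Divisor K F) :
    Prop :=
  (∀ v : Place K F, v.ord y ≠ 0 →
    0 ≤ v.ord G ∧ HasValueAt v G (((D v : ℤ) : K) / ((v.ord y : ℤ) : K))) ∧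
  (∀ v : Place K F, v.ord y = 0 → -((Fermat.Agent.H27.ESD.ramIdx y v : ℤ) - 1) ≤ v.ord G)

/-- **[A1-ART]** the ALGEBRAIC RESIDUE THEOREM for `G dy / y`: if `G` is regular at the zeros
and poles of `y`, with values `c v`, and `ord_v G ≥ -(e_v - 1)` elsewhere, then
`∑_{v ∈ supp (y)} ord_v(y) c v = 0`.
(Proof: `Tr_{F/K(y)} G` lies in `K[y]` because `G` is in the inverse different of the integral
closure of `K[y]` - Mathlib `pow_sub_one_dvd_differentIdeal` - and is regular at `y = ∞`, hence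
is a constant `τ`; reduce modulo `y` and modulo `1/y`:
`τ = ∑_{v | 0} e_v G(v) = ∑_{v | ∞} e_v G(v)`.) -/
def AlgResidueStatement : Prop :=
  ∀ (K F : Type) [Field K] [Field F] [Algebra K F] [IsAlgClosed K] [CharZero K] (g : ℕ),
    Fermat.Agent.H27.ESD.RiemannPackage K F g →
    ∀ y : F, Transcendental K y → FiniteDimensional (IntermediateField.adjoin K {y}) F →
    ∀ (G : F) (c : Place K F → K),
      (∀ v : Place K F, v.ord y ≠ 0 → 0 ≤ v.ord G ∧ HasValueAt v G (c v)) →
      (∀ v : Place K F, v.ord y = 0 →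
        -((Fermat.Agent.H27.ESD.ramIdx y v : ℤ) - 1) ≤ v.ord G) →
      ∑ᶠ v ∈ {v : Place K F | v.ord y ≠ 0}, ((v.ord y : ℤ) : K) * c v = 0

/-- **[A1-CANDEG]** the canonical divisor `div (dy / y)` exists and has degree `2 g - 2`
(from the landed Riemann-Hurwitz formula `Fermat.Agent.H56.RH.hurwitz` and
`∑_{v | 0} e_v = [F : K(y)] = ∑_{v | ∞} e_v`). -/
def CanonicalDegreeStatement : Prop :=
  ∀ (K F : Type) [Field K] [Field F] [Algebra K F] [IsAlgClosed K] [CharZero K] (g : ℕ),
    Fermat.Agent.H27.ESD.RiemannPackage K F g →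
    ∀ y : F, Transcendental K y → FiniteDimensional (IntermediateField.adjoin K {y}) F →
    ∃ W : Divisor K F, (∀ v : Place K F, v.ord y ≠ 0 → W v = -1) ∧
      (∀ v : Place K F, v.ord y = 0 → W v = (Fermat.Agent.H27.ESD.ramIdx y v : ℤ) - 1) ∧
      Divisor.degree W = 2 * (g : ℤ) - 2

/-- **[A1-GAPS]** the space of holomorphic differentials `G dy / y` has dimension at most `g`
(the orders at a zero `v₀` of `y` of its elements, plus one, are Weierstrass gaps at `v₀` by the
algebraic residue theorem, and there are exactly `g` gaps by Riemann's theorem). -/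
def GapBoundStatement : Prop :=
  ∀ (K F : Type) [Field K] [Field F] [Algebra K F] [IsAlgClosed K] [CharZero K] (g : ℕ),
    Fermat.Agent.H27.ESD.RiemannPackage K F g →
    ∀ y : F, Transcendental K y → FiniteDimensional (IntermediateField.adjoin K {y}) F →
    ∀ W : Divisor K F, (∀ v : Place K F, v.ord y ≠ 0 → W v = -1) →
      (∀ v : Place K F, v.ord y = 0 → W v = (Fermat.Agent.H27.ESD.ramIdx y v : ℤ) - 1) →
      Module.finrank K (riemannRochSpace W) ≤ g

/-- **[A1-TKALG]** existence of differentials of the third kind `G dy / y` with prescribed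
integral residues of sum zero on the support of `y` (dimension count: Riemann's inequality for
`W + ∑_{v ∈ supp y} v`, `GapBoundStatement`, `AlgResidueStatement`). -/
def ThirdKindAlgStatement : Prop :=
  ∀ (K F : Type) [Field K] [Field F] [Algebra K F] [IsAlgClosed K] [CharZero K] (g : ℕ),
    Fermat.Agent.H27.ESD.RiemannPackage K F g →
    ∀ y : F, Transcendental K y → FiniteDimensional (IntermediateField.adjoin K {y}) F →
    ∀ D : Divisor K F, Divisor.degree D = 0 → (∀ v : Place K F, v.ord y = 0 → D v = 0) →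
    ∃ G : F, IsThirdKind y G D

/-- **[A1-REPR]** a good representative: every nonzero class is represented by a divisor `D` of
degree zero, effective on the points of `ℍ`, supported on the zeros and poles of a nonconstant
function `y` over which the function field is finite.
(`D = E - n v_∞` with `E ≥ 0` by Riemann, `y ∈ L(m v_∞ - E_red)`.) -/
def RepresentativeStatement (N : ℕ) [NeZero N] : Prop :=
  ∀ x : Pic0 ℂ ↥(FC N), ∃ (D : Divisor.degZero (K := ℂ) (F := ↥(FC N))) (y : ↥(FC N)),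
    Pic0.mk D = x ∧
    (∀ (z₀ : ℍ) (v : Place ℂ ↥(FC N)) (s : ℕ), IsPointPlace N z₀ v s →
      0 ≤ (D : Divisor ℂ ↥(FC N)) v) ∧
    Transcendental ℂ y ∧ FiniteDimensional (IntermediateField.adjoin ℂ {y}) ↥(FC N) ∧
    ∀ v : Place ℂ ↥(FC N), v.ord y = 0 → (D : Divisor ℂ ↥(FC N)) v = 0

/-- **[A1-ANLOC]** the analytic dictionary: a differential of the third kind `G dy / y` of the
function field defines a logarithmic form on `ℍ` with the same residue divisor
(`φ / ψ = (c / e) (a' b - a b') / (a b)` for holomorphic representatives `y = a / b`,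
`G = c / e`; local analysis at the points of `ℍ` and at the cusps with the landed
`PlacesStatement`). -/
def AlgToLogFormStatement (N : ℕ) [NeZero N] : Prop :=
  ∀ (y G : ↥(FC N)) (D : Divisor ℂ ↥(FC N)), Transcendental ℂ y →
    Divisor.degree D = 0 → (∀ v : Place ℂ ↥(FC N), v.ord y = 0 → D v = 0) →
    IsThirdKind y G D → ∃ φ ψ : ℍ → ℂ, IsLogForm N D φ ψ

/-! ### Unitary normalisation -/

/-- **[A1-REALPER]** real form of Eichler-Shimura (from the landed S21 and the reflection
`f ↦ -conj (f (-conj z))`): every real parabolic homomorphism is the imaginary part of the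
period homomorphism of a cusp form. -/
def RealPeriodStatement (N : ℕ) [NeZero N] : Prop :=
  ∀ r : Additive ↥(CongruenceSubgroup.Gamma0 N) →+ ℝ,
    ModularCurve.Period.IsParabolicHom (CongruenceSubgroup.Gamma0 N) r →
    ∃ η : CuspForm (CongruenceSubgroup.Gamma0 N) 2,
      ∀ γ : ↥(CongruenceSubgroup.Gamma0 N),
        (ModularCurve.periodMap N η (Additive.ofMul γ)).im = r (Additive.ofMul γ)

end Fermat.Agent.H84.MWDiv

end
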