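/-
P-MW / block MW-A1 (helper84): second interface file.  The explicit logarithmic form
`G dy / y` on `ℍ` (for the row ANLOC, split into GLOB / PT / CUSP) and the Mathlib-only
integration lemma at a cusp (for the row LFINT).  Definitions and `Prop`s only.
-/
import Fermat.Agent.H84.MWDiv.Interfaces
import Fermat.Agent.H29.ESB.Interfaces

set_option autoImplicit false

noncomputable section

open AlgebraicCurve UpperHalfPlane IntermediateField Filter Topology
open scoped MatrixGroups Manifold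

namespace Fermat.Agent.H84.MWDiv

open Fermat.Agent.H23.EsA

/-- The derivative of a function on `ℍ`, as a function on `ℍ`. -/
def dH (A : ℍ → ℂ) : ℍ → ℂ := fun z => deriv (A ∘ ofComplex) (z : ℂ)

/-- Numerator of the logarithmic form `(C / E) (A' / A - B' / B)`. -/
def logNum (A B C : ℍ → ℂ) : ℍ → ℂ := fun z => C z * (dH A z * B z - A z * dH B z)

/-- Denominator of the logarithmic form `(C / E) (A' / A - B' / B)`. -/
def logDen (A B E : ℍ → ℂ) : ℍ → ℂ := fun z => E z * (A z * B z)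

/-- `y = a / b` and `G = c / e` in the function field, with holomorphic representatives
`A, B, C, E` of `a, b, c, e`. -/
def IsFracData (N : ℕ) (y G : ↥(FC N)) (A B C E : ℍ → ℂ) : Prop :=
  ∃ a b c e : ↥(FC N), b ≠ 0 ∧ e ≠ 0 ∧ y * b = a ∧ G * e = c ∧
    Rep N A a ∧ Rep N B b ∧ Rep N C c ∧ Rep N E e

/-- **[A1-ANLOC-GLOB]** the global properties of `logNum / logDen`: holomorphy, nonvanishing of
the denominator, weight two automorphy. -/
def LogFormGlobalStatement (N : ℕ) [NeZero N] : Prop :=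
  ∀ (y G : ↥(FC N)) (A B C E : ℍ → ℂ), IsFracData N y G A B C E → y ≠ 0 →
    MDiff (logNum A B C) ∧ MDiff (logDen A B E) ∧ logDen A B E ≠ 0 ∧
    ∀ γ ∈ CongruenceSubgroup.Gamma0 N, ∀ z : ℍ,
      logNum A B C (γ • z) * logDen A B E z =
        denom γ z ^ 2 * (logNum A B C z * logDen A B E (γ • z))

/-- **[A1-ANLOC-PT]** the local behaviour of `logNum / logDen` at the points of `ℍ`: at most a
simple pole, with residue `s * D v`. -/
def LogFormPointStatement (N : ℕ) [NeZero N] : Prop :=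
  ∀ (y G : ↥(FC N)) (D : Divisor ℂ ↥(FC N)) (A B C E : ℍ → ℂ), IsFracData N y G A B C E →
    Transcendental ℂ y → (∀ v : Place ℂ ↥(FC N), v.ord y = 0 → D v = 0) → IsThirdKind y G D →
    ∀ (z₀ : ℍ) (v : Place ℂ ↥(FC N)) (s : ℕ), IsPointPlace N z₀ v s →
      ∃ u : ℂ → ℂ, AnalyticAt ℂ u (z₀ : ℂ) ∧ ∀ᶠ z in 𝓝 (z₀ : ℂ),
        (logNum A B C ∘ ofComplex) z * (z - z₀) =
          (logDen A B E ∘ ofComplex) z * ((((s : ℤ) * D v : ℤ) : ℂ) + (z - z₀) * u z)

/-- **[A1-ANLOC-CUSP]** the local behaviour of `logNum / logDen` at the cusps. -/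
def LogFormCuspStatement (N : ℕ) [NeZero N] : Prop :=
  ∀ (y G : ↥(FC N)) (D : Divisor ℂ ↥(FC N)) (A B C E : ℍ → ℂ), IsFracData N y G A B C E →
    Transcendental ℂ y → (∀ v : Place ℂ ↥(FC N), v.ord y = 0 → D v = 0) → IsThirdKind y G D →
    ∀ (δ : SL(2, ℤ)) (v : Place ℂ ↥(FC N)) (w : ℕ), IsCuspPlace N δ v w →
      ∃ C₀ Y ε : ℝ, 0 < ε ∧ ∀ z : ℍ, Y ≤ z.im → logDen A B E (δ • z) ≠ 0 ∧
        ‖logNum A B C (δ • z) / logDen A B E (δ • z) * (denom δ z ^ 2)⁻¹ -
            2 * (Real.pi : ℂ) * Complex.I * ((D v : ℤ) : ℂ) / (w : ℂ)‖ ≤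
          C₀ * Real.exp (-ε * z.im)

/-- **[A1-LFINT-CUSP]** (Mathlib only) integration of a logarithmic form at the cusp `i∞`:
if `H' / H = Φ / Ψ` on `ℍ`, where `Φ / Ψ` is `w`-periodic and tends to `2πi d / w`
exponentially fast (`d ∈ ℤ`), then `H` is `w`-periodic, of moderate growth, and its order at
the cusp in the variable `exp (2πi z / w)` is `d`. -/
def CuspIntegralStatement : Prop :=
  ∀ (Φ Ψ H : ℍ → ℂ) (w : ℕ) (d : ℤ), 0 < w → MDiff Φ → MDiff Ψ → MDiff H → H ≠ 0 →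
    (∀ z : ℍ, dH H z * Ψ z = Φ z * H z) →
    (∀ z : ℍ, Φ (ModularGroup.T ^ w • z) * Ψ z = Φ z * Ψ (ModularGroup.T ^ w • z)) →
    (∃ C Y ε : ℝ, 0 < ε ∧ ∀ z : ℍ, Y ≤ z.im → Ψ z ≠ 0 ∧
      ‖Φ z / Ψ z - 2 * (Real.pi : ℂ) * Complex.I * (d : ℂ) / (w : ℂ)‖ ≤
        C * Real.exp (-ε * z.im)) →
    (∀ z : ℍ, H (ModularGroup.T ^ w • z) = H z) ∧ GrowthAtInfty H ∧
      cuspOrd w H = ((d : ℤ) : WithTop ℤ)

/-- **[A1-DESC-ABS]** abstract descent of division points along a constant field extension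
(same proof as the landed `Fermat.Agent.H29.SurjectivityStatement`, with "`m D'` principal"
replaced by "`m D' - bc(D₀)` principal"). -/
def DivisionDescentStatement : Prop :=
  ∀ (k K Fk FK : Type) [Field k] [Field K] [Field Fk] [Field FK]
    [Algebra k Fk] [Algebra K FK] [IsAlgClosed k] [CharZero k] [IsAlgClosed K] [CharZero K]
    (E : Fermat.Agent.H29.ConstExt k K Fk FK) (_Gd : Fermat.Agent.H29.GaloisData E)
    (ext : Place k Fk → Place K FK), Fermat.Agent.H29.IsPlaceExt E ext →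
    ∀ m : ℕ, 0 < m → Finite (Pic0.torsion K FK m) →
    ∀ (D₀ : Divisor k Fk) (D' : Divisor K FK), Divisor.degree D' = 0 →
      Divisor.IsPrincipal (m • D' - Fermat.Agent.H29.divisorBC ext D₀) →
      ∃ D : Divisor k Fk, Divisor.degree D = 0 ∧
        Divisor.IsPrincipal (D' - Fermat.Agent.H29.divisorBC ext D)

end Fermat.Agent.H84.MWDiv

end
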