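/-
P-MW / block MW-A1 (helper84): third interface file: the split of the algebraic residue
theorem (row ART) into three parts.  `Prop`s only.
-/
import Fermat.Agent.H84.MWDiv.Interfaces

set_option autoImplicit false

noncomputable section

open AlgebraicCurve IntermediateField

namespace Fermat.Agent.H84.MWDiv

/-- **[A1-ART-i]** integrality of the trace: if `ord_v G ≥ -(e_v - 1)` at all places `v` which
are not poles of `y`, then `Tr_{F/K(y)} G` is a polynomial in `y`.
(`G` lies in the inverse different of the integral closure of `K[y]`.) -/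
def TraceIntegralStatement : Prop :=
  ∀ (K F : Type) [Field K] [Field F] [Algebra K F] [IsAlgClosed K] [CharZero K] (g : ℕ),
    Fermat.Agent.H27.ESD.RiemannPackage K F g →
    ∀ y : F, Transcendental K y → FiniteDimensional K⟮y⟯ F →
    ∀ G : F,
      (∀ v : Place K F, 0 ≤ v.ord y →
        -((Fermat.Agent.H27.ESD.ramIdx y v : ℤ) - 1) ≤ v.ord G) →
      ∃ P : Polynomial K,
        algebraMap K⟮y⟯ F (Algebra.trace K⟮y⟯ F G) = Polynomial.aeval y P

/-- **[A1-ART-ii]** the trace modulo `y`: if `G` is regular at the zeros `v` of `y`, with values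
`c v`, and `Tr_{F/K(y)} G = P(y)` is a polynomial in `y`, then
`P(0) = ∑_{v | 0} ord_v(y) c v`. -/
def TraceResidueStatement : Prop :=
  ∀ (K F : Type) [Field K] [Field F] [Algebra K F] [IsAlgClosed K] [CharZero K] (g : ℕ),
    Fermat.Agent.H27.ESD.RiemannPackage K F g →
    ∀ y : F, Transcendental K y → FiniteDimensional K⟮y⟯ F →
    ∀ (G : F) (c : Place K F → K) (P : Polynomial K),
      (∀ v : Place K F, 0 < v.ord y → 0 ≤ v.ord G ∧ HasValueAt v G (c v)) →
      algebraMap K⟮y⟯ F (Algebra.trace K⟮y⟯ F G) = Polynomial.aeval y P →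
      P.eval 0 = ∑ᶠ v ∈ {v : Place K F | 0 < v.ord y}, ((v.ord y : ℤ) : K) * c v

/-- **[A1-ART-iii]** the algebraic residue theorem from its two parts (apply them to `y` and to
`y⁻¹`: `Tr G = P(y) = Q(y⁻¹)` is a constant). -/
def AlgResidueAssemblyStatement : Prop :=
  TraceIntegralStatement → TraceResidueStatement → AlgResidueStatement

end Fermat.Agent.H84.MWDiv

end
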