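/-
P-MW / block MW-A1 (helper84): the formal assemblies.
-/
import Fermat.Agent.H84.MWDiv.Interfaces2
import Fermat.Agent.H23.EsA.Unconditional
import Fermat.Agent.H77.EsAMFFinal
import Fermat.Agent.H13.EsACoreC
import Fermat.Agent.H58.RR.ESD

set_option autoImplicit false

noncomputable section

open AlgebraicCurve UpperHalfPlane IntermediateField Filter Topology
open scoped MatrixGroups Manifold

namespace Fermat.Agent.H84.MWDiv

open Fermat.Agent.H23.EsA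

/-! ### Moderate growth of products -/

theorem mwd_moderateGrowth_mul {h₁ h₂ : ℍ → ℂ} (H₁ : ModerateGrowth h₁)
    (H₂ : ModerateGrowth h₂) : ModerateGrowth (h₁ * h₂) := by
  intro γ
  obtain ⟨M₁, C₁, Y₁, hb₁⟩ := H₁ γ
  obtain ⟨M₂, C₂, Y₂, hb₂⟩ := H₂ γ
  refine ⟨M₁ + M₂, C₁ * C₂, max Y₁ Y₂, fun z hz => ?_⟩
  have h1 := hb₁ z (le_trans (le_max_left _ _) hz)
  have h2 := hb₂ z (le_trans (le_max_right _ _) hz)
  have e : C₁ * C₂ * Real.exp (2 * Real.pi * ((M₁ + M₂ : ℕ) : ℝ) * z.im)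
      = (C₁ * Real.exp (2 * Real.pi * (M₁ : ℝ) * z.im))
        * (C₂ * Real.exp (2 * Real.pi * (M₂ : ℝ) * z.im)) := by
    have : 2 * Real.pi * ((M₁ + M₂ : ℕ) : ℝ) * z.im
        = 2 * Real.pi * (M₁ : ℝ) * z.im + 2 * Real.pi * (M₂ : ℝ) * z.im := by
      push_cast; ring
    rw [this, Real.exp_add]; ring
  rw [e, Pi.mul_apply, norm_mul]
  exact mul_le_mul h1 h2 (norm_nonneg _) (le_trans (norm_nonneg _) h1)

theorem mwd_moderateGrowth_one : ModerateGrowth (1 : ℍ → ℂ) := by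
  intro γ
  refine ⟨0, 1, 0, fun z _ => ?_⟩
  simp

theorem mwd_moderateGrowth_pow {h : ℍ → ℂ} (H : ModerateGrowth h) (n : ℕ) :
    ModerateGrowth (h ^ n) := by
  induction n with
  | zero => rw [pow_zero]; exact mwd_moderateGrowth_one
  | succ k ih => rw [pow_succ]; exact mwd_moderateGrowth_mul ih H

/-! ### The easy assemblies -/

/-- ANLOC from its three parts. -/
theorem algToLogForm_of_parts (N : ℕ) [NeZero N] (hG : LogFormGlobalStatement N)
    (hP : LogFormPointStatement N) (hC : LogFormCuspStatement N) :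
    AlgToLogFormStatement N := by
  intro y G D hy _hdeg hsupp hTK
  obtain ⟨-, hfrac⟩ := Fermat.Agent.H13.esaCoreC N
  obtain ⟨a, b, ha, hb, hb0, hyb⟩ := hfrac y
  obtain ⟨c, e, hc, he, he0, hGe⟩ := hfrac G
  obtain ⟨A, hA, -⟩ := Fermat.Agent.H13.esaRsubRep N a ha
  obtain ⟨B, hB, -⟩ := Fermat.Agent.H13.esaRsubRep N b hb
  obtain ⟨C, hC', -⟩ := Fermat.Agent.H13.esaRsubRep N c hc
  obtain ⟨E, hE, -⟩ := Fermat.Agent.H13.esaRsubRep N e he
  have hfd : IsFracData N y G A B C E := ⟨a, b, c, e, hb0, he0, hyb, hGe, hA, hB, hC', hE⟩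
  have hy0 : y ≠ 0 := by
    rintro rfl
    exact hy isAlgebraic_zero
  obtain ⟨h1, h2, h3, h4⟩ := hG y G A B C E hfd hy0
  exact ⟨logNum A B C, logDen A B E, h1, h2, h3, h4,
    fun z₀ v s hv => hP y G D A B C E hfd hy hsupp hTK z₀ v s hv,
    fun δ v w hv => hC y G D A B C E hfd hy hsupp hTK δ v w hv⟩


/-- LFEX from REPR, TKALG, ANLOC (and the landed Riemann theorem). -/
theorem logFormExists_of_parts (N : ℕ) [NeZero N] (hR : RepresentativeStatement N)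
    (hT : ThirdKindAlgStatement) (hA : AlgToLogFormStatement N) :
    LogFormExistsStatement N := by
  intro x
  obtain ⟨D, y, hDx, hDpt, hy, hfin, hsupp⟩ := hR x
  obtain ⟨hjt, hjfin, -⟩ := degreeCStatement N
  obtain ⟨g, hg⟩ := Fermat.Agent.H58.riemannTheorem_charZero ℂ ↥(FC N)
    (jC N 1 (one_dvd N)) hjt hjfin
  have hdeg : Divisor.degree (D : Divisor ℂ ↥(FC N)) = 0 := D.2
  obtain ⟨G, hG⟩ := hT ℂ ↥(FC N) g hg y hy hfin (D : Divisor ℂ ↥(FC N)) hdeg hsupp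
  obtain ⟨φ, ψ, h⟩ := hA y G (D : Divisor ℂ ↥(FC N)) hy hdeg hsupp hG
  exact ⟨D, hDx, hDpt, φ, ψ, h⟩

/-- MULTEX from LFEX and LFINT. -/
theorem multExists_of_parts (N : ℕ) [NeZero N] (hL : LogFormExistsStatement N)
    (hI : LogFormIntegralStatement N) : MultExistsStatement N := by
  intro x
  obtain ⟨D, hDx, hDpt, φ, ψ, h⟩ := hL x
  obtain ⟨F, χ, hF⟩ := hI (D : Divisor ℂ ↥(FC N)) D.2 hDpt φ ψ h
  exact ⟨D, F, χ, hDx, hF⟩

/-! ### Divisibility over `ℂ` -/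

theorem mwd_isParEllTrivial_inv {N : ℕ} {χ : Char0 N} (h : IsParEllTrivial N χ) :
    IsParEllTrivial N χ⁻¹ := by
  intro γ hγ
  rw [MonoidHom.inv_apply, h γ hγ, inv_one]

theorem mwd_isUnitary_inv {N : ℕ} {χ : Char0 N} (h : IsUnitary χ) : IsUnitary χ⁻¹ := by
  intro γ
  rw [MonoidHom.inv_apply, Units.val_inv_eq_inv_val, norm_inv, h γ, inv_one]

/-- Division of a divisor by `n`, when all its values are divisible by `n`. -/
theorem mwd_exists_div (N : ℕ) (n : ℕ) (hn : 0 < n) (A : Divisor ℂ ↥(FC N))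
    (hA : ∀ v, ∃ k : ℤ, A v = (n : ℤ) * k) :
    ∃ E : Divisor ℂ ↥(FC N), (n : ℤ) • E = A := by
  classical
  have hn0 : (n : ℤ) ≠ 0 := by exact_mod_cast hn.ne'
  refine ⟨Finsupp.onFinset A.support (fun v => A v / (n : ℤ)) ?_, ?_⟩
  · intro v hv
    rw [Finsupp.mem_support_iff]
    intro h0
    exact hv (by rw [h0]; simp)
  · ext v
    obtain ⟨k, hk⟩ := hA v
    rw [Finsupp.smul_apply, Finsupp.onFinset_apply, hk, Int.mul_ediv_cancel_left _ hn0,
      smul_eq_mul]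

/-- **ASM-C**: divisibility of `Pic⁰(ℂ(X₀(N)))` from the parts. -/
theorem divisibleC_of_parts (N : ℕ) [NeZero N] (hM : MultExistsStatement N)
    (hU : UnitaryStatement N) (hR : CharRootStatement N) (hE : UnitaryEisStatement N)
    (hP : ProductOrderStatement N) (n : ℕ) (hn : 0 < n) : DivisibleCStatement N n := by
  classical
  intro x
  obtain ⟨D, F₀, χ₀, hDx, hF₀⟩ := hM x
  obtain ⟨F, χ, hF, hχu⟩ := hU (D : Divisor ℂ ↥(FC N)) F₀ χ₀ hF₀
  obtain ⟨hFmd, hFne, hFchar, hχpe, hFmg, -, -⟩ := id hF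
  obtain ⟨ψ, hψpe, hψu, hψn⟩ := hR n hn χ⁻¹ (mwd_isParEllTrivial_inv hχpe)
    (mwd_isUnitary_inv hχu)
  obtain ⟨G, hGmd, hGne, hGchar, hGmg⟩ := hE ψ hψpe hψu
  -- the invariant function
  have hinv : ∀ γ ∈ CongruenceSubgroup.Gamma0 N, ∀ z : ℍ,
      (F * G ^ n) (γ • z) = (F * G ^ n) z := by
    intro γ hγ z
    have h1 := hFchar ⟨γ, hγ⟩ z
    have h2 := hGchar ⟨γ, hγ⟩ z
    have h3 : ((χ ⟨γ, hγ⟩ : ℂˣ) : ℂ) * ((ψ ⟨γ, hγ⟩ : ℂˣ) : ℂ) ^ n = 1 := by
      have := congrArg (fun φ : Char0 N => ((φ ⟨γ, hγ⟩ : ℂˣ) : ℂ)) hψn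
      simp only [MonoidHom.pow_apply, Units.val_pow_eq_pow_val, MonoidHom.inv_apply,
        Units.val_inv_eq_inv_val] at this
      rw [this]
      exact mul_inv_cancel₀ (Units.ne_zero _)
    simp only [Pi.mul_apply, Pi.pow_apply]
    change F ((γ : SL(2, ℤ)) • z) * G ((γ : SL(2, ℤ)) • z) ^ n = F z * G z ^ n
    have h1' : F (γ • z) = ((χ ⟨γ, hγ⟩ : ℂˣ) : ℂ) * F z := h1
    have h2' : G (γ • z) = ((ψ ⟨γ, hγ⟩ : ℂˣ) : ℂ) * G z := h2
    rw [h1', h2', mul_pow]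
    calc ((χ ⟨γ, hγ⟩ : ℂˣ) : ℂ) * F z * (((ψ ⟨γ, hγ⟩ : ℂˣ) : ℂ) ^ n * G z ^ n)
        = (((χ ⟨γ, hγ⟩ : ℂˣ) : ℂ) * ((ψ ⟨γ, hγ⟩ : ℂˣ) : ℂ) ^ n) * (F z * G z ^ n) := by ring
      _ = F z * G z ^ n := by rw [h3, one_mul]
  have hmd : MDiff (F * G ^ n) := hFmd.mul (hGmd.pow n)
  have hmg : ModerateGrowth (F * G ^ n) :=
    mwd_moderateGrowth_mul hFmg (mwd_moderateGrowth_pow hGmg n)
  obtain ⟨f, hf⟩ := Fermat.Agent.H77.esm_holModularStatement_of_degreeC N (degreeCStatement N)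
    (F * G ^ n) hmd hinv hmg
  obtain ⟨hf0, hord⟩ := hP n (D : Divisor ℂ ↥(FC N)) F G χ ψ f hF hGmd hGne hGchar hψpe hGmg hf
  -- the divisor of `f`
  obtain ⟨hPD, -⟩ := principalDivisorCStatement N
  obtain ⟨Df, hDf, hDfdeg⟩ := hPD.exists_divisor f hf0
  obtain ⟨E, hE⟩ := mwd_exists_div N n hn (Df - (D : Divisor ℂ ↥(FC N))) (fun v => by
    obtain ⟨k, hk⟩ := hord v
    exact ⟨k, by rw [Finsupp.sub_apply, hDf v, hk]; ring⟩)
  have hn0 : (n : ℤ) ≠ 0 := by exact_mod_cast hn.ne'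
  have hEdeg : Divisor.degree E = 0 := by
    have h1 : Divisor.degree ((n : ℤ) • E) = 0 := by
      rw [hE, map_sub, hDfdeg, (D.2 : Divisor.degree (D : Divisor ℂ ↥(FC N)) = 0), sub_zero]
    rw [map_zsmul, smul_eq_mul] at h1
    exact (mul_eq_zero.mp h1).resolve_left hn0
  let E₀ : Divisor.degZero (K := ℂ) (F := ↥(FC N)) := ⟨E, hEdeg⟩
  let Df₀ : Divisor.degZero (K := ℂ) (F := ↥(FC N)) := ⟨Df, hDfdeg⟩
  have hDf0 : Pic0.mk Df₀ = 0 := by
    rw [Pic0.mk, QuotientAddGroup.eq_zero_iff]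
    exact ⟨f, hf0, hDf⟩
  have hrel : (n : ℤ) • E₀ = Df₀ - D := Subtype.ext (by
    rw [AddSubgroup.coe_zsmul, AddSubgroup.coe_sub]; exact hE)
  refine ⟨-Pic0.mk E₀, ?_⟩
  have h2 : (n : ℤ) • Pic0.mk E₀ = Pic0.mk Df₀ - Pic0.mk D := by
    have := congrArg Pic0.mk hrel
    simpa [Pic0.mk] using this
  rw [hDf0, zero_sub, hDx] at h2
  rw [neg_nsmul, ← natCast_zsmul, h2, neg_neg]

/-- **FINAL**: divisibility of `J₀(N)(ℚ̄)` from divisibility over `ℂ` and the descent. -/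
theorem divisibleBar_of_parts (N : ℕ) [NeZero N] (hC : ∀ n : ℕ, 0 < n → DivisibleCStatement N n)
    (hD : DescentDivStatement N) (n : ℕ) (hn : 0 < n) : DivisibleBarStatement N n :=
  hD n hn (hC n hn)

/-- Everything together. -/
theorem divisibleBar_of_all (N : ℕ) [NeZero N]
    (hART : AlgResidueStatement) (hCAN : CanonicalDegreeStatement)
    (hGAP : AlgResidueStatement → GapBoundStatement)
    (hTK : AlgResidueStatement → CanonicalDegreeStatement → GapBoundStatement →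
      ThirdKindAlgStatement)
    (hREP : RepresentativeStatement N)
    (hGL : LogFormGlobalStatement N) (hPT : LogFormPointStatement N)
    (hCU : LogFormCuspStatement N)
    (hLFI : LogFormIntegralStatement N)
    (hUNI : UnitaryStatement N) (hROOT : CharRootStatement N) (hEIS : UnitaryEisStatement N)
    (hPROD : ProductOrderStatement N) (hDESC : DescentDivStatement N)
    (n : ℕ) (hn : 0 < n) : DivisibleBarStatement N n :=
  divisibleBar_of_parts N (fun m hm =>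
    divisibleC_of_parts N
      (multExists_of_parts N
        (logFormExists_of_parts N hREP (hTK hART hCAN (hGAP hART))
          (algToLogForm_of_parts N hGL hPT hCU)) hLFI)
      hUNI hROOT hEIS hPROD m hm) hDESC n hn

end Fermat.Agent.H84.MWDiv

end
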