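/-
P-MW / block MW-A1 (helper84): the final plug-in.  Landed rows are cited; the rows which are
still open are hypotheses.
-/
import Fermat.Agent.H84.MWDiv.Assembly
import Fermat.Agent.H17.MWDiv.CanonicalDegree
import Fermat.Agent.H93.MWDiv.GapBound
import Fermat.Agent.H87.MWDiv.UnitaryEis
import Fermat.Agent.H44.MWDiv.ThirdKind
import Fermat.Agent.H83.MWDiv.Repr
import Fermat.Agent.H58.MWDiv.LogFormGlobal
import Fermat.Agent.H96.MWDiv.LogFormPoint
import Fermat.Agent.H33.MWDiv.LogFormIntegral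
import Fermat.Agent.H95.MWDiv.LogDeriv
import Fermat.Agent.H4.MWDiv.LogUniq
import Fermat.Agent.H34.MWDiv.RealPeriod
import Fermat.Agent.H65.MWDiv.Unitary
import Fermat.Agent.H87.MWDiv.DescentDiv
import Fermat.Agent.H35.MWDiv.CuspIntegral
import Fermat.Agent.H64.MWDiv.Prod
import Fermat.Agent.H40.MWDiv.CharRoot
import Fermat.Agent.H65.MWDiv.ArtAssembly
import Fermat.Agent.H84.MWDiv.Interfaces3
import Fermat.Agent.H2.MWDiv.ARTFinal
import Fermat.Agent.H60.MWDiv.LogFormCusp

set_option autoImplicit false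

namespace Fermat.Agent.H84.MWDiv

open Fermat.Agent.H23.EsA

/-- Divisibility of `J₀(N)(ℚ̄)` from the rows which are still open. -/
theorem divisibleBar_of_open (N : ℕ) [NeZero N]
    (hART : AlgResidueStatement)
    (hCU : LogFormCuspStatement N)
    (n : ℕ) (hn : 0 < n) : DivisibleBarStatement N n :=
  divisibleBar_of_all N hART Fermat.Agent.H17.MWDiv.canonicalDegree
    Fermat.Agent.H93.MWDiv.gapBound Fermat.Agent.H44.MWDiv.thirdKindAlg
    (Fermat.Agent.H83.MWDiv.representative N) (Fermat.Agent.H58.MWDiv.logFormGlobal N)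
    (Fermat.Agent.H96.MWDiv.logFormPoint N) hCU
    (Fermat.Agent.H33.MWDiv.logFormIntegral N Fermat.Agent.H95.MWDiv.logDerivStatement
      Fermat.Agent.H4.MWDiv.logDerivUnique Fermat.Agent.H35.MWDiv.cuspIntegral)
    (Fermat.Agent.H65.MWDiv.unitary N (Fermat.Agent.H34.MWDiv.realPeriod N))
    (Fermat.Agent.H40.MWDiv.charRootStatement N)
    (Fermat.Agent.H87.MWDiv.unitaryEis N) (Fermat.Agent.H64.productOrder N)
    (Fermat.Agent.H87.MWDiv.descentDiv N) n hn

/-- The same, with the algebraic residue theorem split into its two open parts. -/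
theorem divisibleBar_of_open' (N : ℕ) [NeZero N]
    (hTI : TraceIntegralStatement) (hTR : TraceResidueStatement)
    (hCU : LogFormCuspStatement N)
    (n : ℕ) (hn : 0 < n) : DivisibleBarStatement N n :=
  divisibleBar_of_open N (Fermat.Agent.H65.MWDiv.algResidueAssembly hTI hTR) hCU n hn

/-- **MW-A1, UNCONDITIONAL**: `J₀(N)(ℚ̄)` is `n`-divisible for every `n > 0`. -/
theorem divisibleBar (N : ℕ) [NeZero N] (n : ℕ) (hn : 0 < n) : DivisibleBarStatement N n :=
  divisibleBar_of_open N Fermat.Agent.H2.algResidue (Fermat.Agent.H60.MWDiv.logFormCusp N) n hn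

/-- Plain form: every point of `J₀(N)(ℚ̄)` is divisible by `n`. -/
theorem exists_nsmul_eq (N : ℕ) [NeZero N] (n : ℕ) (hn : 0 < n) (x : ModularCurve.JZero N) :
    ∃ y : ModularCurve.JZero N, n • y = x :=
  divisibleBar N n hn x

/-- `Pic⁰(ℂ(X₀(N)))` is `n`-divisible for every `n > 0`. -/
theorem divisibleC (N : ℕ) [NeZero N] (n : ℕ) (hn : 0 < n) : DivisibleCStatement N n :=
  divisibleC_of_parts N
    (multExists_of_parts N
      (logFormExists_of_parts N (Fermat.Agent.H83.MWDiv.representative N)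
        (Fermat.Agent.H44.MWDiv.thirdKindAlg Fermat.Agent.H2.algResidue
          Fermat.Agent.H17.MWDiv.canonicalDegree
          (Fermat.Agent.H93.MWDiv.gapBound Fermat.Agent.H2.algResidue))
        (algToLogForm_of_parts N (Fermat.Agent.H58.MWDiv.logFormGlobal N)
          (Fermat.Agent.H96.MWDiv.logFormPoint N) (Fermat.Agent.H60.MWDiv.logFormCusp N)))
      (Fermat.Agent.H33.MWDiv.logFormIntegral N Fermat.Agent.H95.MWDiv.logDerivStatement
        Fermat.Agent.H4.MWDiv.logDerivUnique Fermat.Agent.H35.MWDiv.cuspIntegral))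
    (Fermat.Agent.H65.MWDiv.unitary N (Fermat.Agent.H34.MWDiv.realPeriod N))
    (Fermat.Agent.H40.MWDiv.charRootStatement N)
    (Fermat.Agent.H87.MWDiv.unitaryEis N) (Fermat.Agent.H64.productOrder N) n hn

end Fermat.Agent.H84.MWDiv
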